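/-
S45, project CARAYOL-K, block PTS, node NC (second team: helper163).  THE ABSTRACT WINDOW.

Three indicator functions `y 0 * y 1 * y 2 = q` in a local ring `R` with the local `q`-expansion principle; every
component `V c` has a type `ty c : Fin 3`: `y (ty c)` is a nonunit of `V c`, the two others are units of `V c`; the three
congruences of `BAD.Model.NonCuspData`.  Then `y τ` is a nonunit of `R` iff a component of type `τ` passes through `R`,
and at most one of the `y τ` is a nonunit, or all of them are.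
-/
import Mathlib
import Fermat.Agent.S18.Defs
import Fermat.Agent.S36.BP.Defs
import Fermat.Agent.S36.BP.Rad
import Fermat.Agent.S36.BP.Build.LocalCrit

set_option autoImplicit false

noncomputable section

namespace Fermat.Agent.S45.Pts.NC

open Fermat.Agent.S18 Fermat.Agent.S36.BP Fermat.Agent.S36.BP.Build

variable {F : Type*} [Field F] {κ : Type*}

/-- an element with the valuation of a uniformiser is a uniformiser. -/
theorem isUnif_of_val_eq {W : ValuationSubring F} {ϖ x : F} (h : IsUnif W ϖ)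
    (hv : W.valuation x = W.valuation ϖ) : IsUnif W x := by
  refine ⟨?_, ?_, ?_⟩
  · rw [← ValuationSubring.valuation_le_one_iff, hv, ValuationSubring.valuation_le_one_iff]
    exact h.mem
  · rw [← ValuationSubring.valuation_le_one_iff, map_inv₀, hv, ← map_inv₀,
      ValuationSubring.valuation_le_one_iff]
    exact h.inv_notMem
  · intro y hy
    obtain ⟨n, h1, h2⟩ := h.exists_zpow y hy
    refine ⟨n, ?_, ?_⟩
    · rw [← ValuationSubring.valuation_le_one_iff, map_div₀, map_zpow₀, hv, ← map_zpow₀, ← map_div₀,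
        ValuationSubring.valuation_le_one_iff]
      exact h1
    · rw [← ValuationSubring.valuation_le_one_iff, map_inv₀, map_div₀, map_zpow₀, hv, ← map_zpow₀,
        ← map_div₀, ← map_inv₀, ValuationSubring.valuation_le_one_iff]
      exact h2

/-- The data of a window. -/
structure Win (q : ℕ) (V : κ → ValuationSubring F) (R : Subring F) (ty : κ → Fin 3)
    (y : Fin 3 → F) (e : Fin 3 → F) : Prop where
  e_unit : ∀ i, RUnit R (e i)
  mem : ∀ τ, y τ ∈ R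
  prod : y 0 * y 1 * y 2 = (q : F)
  lt : ∀ c, (V c).valuation (y (ty c)) < 1
  one : ∀ c τ, ty c ≠ τ → (V c).valuation (y τ) = 1
  c0 : ∀ c, ty c = 0 → (V c).valuation (y 1 - e 0 * y 2 ^ (q - 1)) < 1
  c1 : ∀ c, ty c = 1 → (V c).valuation (y 0 - e 1 * y 2) < 1
  c2 : ∀ c, ty c = 2 → (V c).valuation (y 1 - e 2 * y 0 ^ (q - 1)) < 1

namespace Win

variable {q : ℕ} {V : κ → ValuationSubring F} {R : Subring F} {ty : κ → Fin 3} {y e : Fin 3 → F}

theorem ne_zero (D : Win q V R ty y e) (hq0 : (q : F) ≠ 0) (τ : Fin 3) : y τ ≠ 0 := by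
  intro h
  apply hq0
  rw [← D.prod]
  fin_cases τ
  · have h' : y 0 = 0 := h
    rw [h']; ring
  · have h' : y 1 = 0 := h
    rw [h']; ring
  · have h' : y 2 = 0 := h
    rw [h']; ring

theorem q_div_mem (D : Win q V R ty y e) (hq0 : (q : F) ≠ 0) (τ : Fin 3) : (q : F) ^ 1 / y τ ∈ R := by
  have h0 := D.ne_zero hq0 0
  have h1 := D.ne_zero hq0 1
  have h2 := D.ne_zero hq0 2
  rw [pow_one, ← D.prod]
  fin_cases τ
  · have e1 : y 0 * y 1 * y 2 / y 0 = y 1 * y 2 := by field_simp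
    show y 0 * y 1 * y 2 / y 0 ∈ R
    rw [e1]; exact R.mul_mem (D.mem 1) (D.mem 2)
  · have e1 : y 0 * y 1 * y 2 / y 1 = y 0 * y 2 := by field_simp
    show y 0 * y 1 * y 2 / y 1 ∈ R
    rw [e1]; exact R.mul_mem (D.mem 0) (D.mem 2)
  · have e1 : y 0 * y 1 * y 2 / y 2 = y 0 * y 1 := by field_simp
    show y 0 * y 1 * y 2 / y 2 ∈ R
    rw [e1]; exact R.mul_mem (D.mem 0) (D.mem 1)

/-- `y τ` is a nonunit of `R` iff a component of type `τ` passes through `R`. -/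
theorem mem_rad_iff (D : Win q V R ty y e) (hq0 : (q : F) ≠ 0) (hqep : LocQep q V R) (τ : Fin 3) :
    y τ ∈ rad R ↔ ∃ c, Through R (V c) ∧ ty c = τ := by
  constructor
  · intro h
    by_contra hcon
    refine h.2 (runit_of hqep (D.mem τ) (D.ne_zero hq0 τ) (D.q_div_mem hq0 τ) fun c hc => ?_)
    exact D.one c τ fun hτ => hcon ⟨c, hc, hτ⟩
  · rintro ⟨c, hc, rfl⟩
    exact mem_rad_of_val_lt hc.le (D.mem _) (D.lt c)

theorem unit_of_not (D : Win q V R ty y e) (hq0 : (q : F) ≠ 0) (hqep : LocQep q V R) (τ : Fin 3)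
    (h : ∀ c, Through R (V c) → ty c ≠ τ) : RUnit R (y τ) :=
  runit_of hqep (D.mem τ) (D.ne_zero hq0 τ) (D.q_div_mem hq0 τ) fun c hc => D.one c τ (h c hc)

theorem iff0 (D : Win q V R ty y e) (hq : 2 ≤ q) (hq0 : (q : F) ≠ 0) (hqep : LocQep q V R)
    (hadd : ∀ a ∈ rad R, ∀ b ∈ rad R, a + b ∈ rad R) (h : y 0 ∈ rad R) :
    y 1 ∈ rad R ↔ y 2 ∈ rad R := by
  obtain ⟨c, hc, hτ⟩ := (D.mem_rad_iff hq0 hqep 0).1 h
  have h1 : y 1 - e 0 * y 2 ^ (q - 1) ∈ rad R :=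
    mem_rad_of_val_lt hc.le (R.sub_mem (D.mem 1) (R.mul_mem (D.e_unit 0).mem (R.pow_mem (D.mem 2) _)))
      (D.c0 c hτ)
  rw [mem_rad_iff_of_sub hadd h1, unit_mul_pow_mem_rad_iff (D.e_unit 0) (D.mem 2) (by omega)]

theorem iff1 (D : Win q V R ty y e) (hq0 : (q : F) ≠ 0) (hqep : LocQep q V R)
    (hadd : ∀ a ∈ rad R, ∀ b ∈ rad R, a + b ∈ rad R) (h : y 1 ∈ rad R) :
    y 0 ∈ rad R ↔ y 2 ∈ rad R := by
  obtain ⟨c, hc, hτ⟩ := (D.mem_rad_iff hq0 hqep 1).1 h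
  have h1 : y 0 - e 1 * y 2 ∈ rad R :=
    mem_rad_of_val_lt hc.le (R.sub_mem (D.mem 0) (R.mul_mem (D.e_unit 1).mem (D.mem 2))) (D.c1 c hτ)
  have h2 := unit_mul_pow_mem_rad_iff (D.e_unit 1) (D.mem 2) (n := 1) one_ne_zero
  rw [pow_one] at h2
  rw [mem_rad_iff_of_sub hadd h1, h2]

theorem iff2 (D : Win q V R ty y e) (hq : 2 ≤ q) (hq0 : (q : F) ≠ 0) (hqep : LocQep q V R)
    (hadd : ∀ a ∈ rad R, ∀ b ∈ rad R, a + b ∈ rad R) (h : y 2 ∈ rad R) :
    y 1 ∈ rad R ↔ y 0 ∈ rad R := by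
  obtain ⟨c, hc, hτ⟩ := (D.mem_rad_iff hq0 hqep 2).1 h
  have h1 : y 1 - e 2 * y 0 ^ (q - 1) ∈ rad R :=
    mem_rad_of_val_lt hc.le (R.sub_mem (D.mem 1) (R.mul_mem (D.e_unit 2).mem (R.pow_mem (D.mem 0) _)))
      (D.c2 c hτ)
  rw [mem_rad_iff_of_sub hadd h1, unit_mul_pow_mem_rad_iff (D.e_unit 2) (D.mem 0) (by omega)]

/-- **at most one type, or all three.** -/
theorem cond (D : Win q V R ty y e) (hq : 2 ≤ q) (hq0 : (q : F) ≠ 0) (hqep : LocQep q V R)
    (hadd : ∀ a ∈ rad R, ∀ b ∈ rad R, a + b ∈ rad R) :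
    ((¬ (∃ c, Through R (V c) ∧ ty c = 2) ∧ ¬ (∃ c, Through R (V c) ∧ ty c = 1)) ∨
      (¬ (∃ c, Through R (V c) ∧ ty c = 2) ∧ ¬ (∃ c, Through R (V c) ∧ ty c = 0)) ∨
      (¬ (∃ c, Through R (V c) ∧ ty c = 1) ∧ ¬ (∃ c, Through R (V c) ∧ ty c = 0))) ∨
    ((∃ c, Through R (V c) ∧ ty c = 2) ∧ (∃ c, Through R (V c) ∧ ty c = 1) ∧
      (∃ c, Through R (V c) ∧ ty c = 0)) := by
  rw [← D.mem_rad_iff hq0 hqep 0, ← D.mem_rad_iff hq0 hqep 1, ← D.mem_rad_iff hq0 hqep 2]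
  have h0 := D.iff0 hq hq0 hqep hadd
  have h1 := D.iff1 hq0 hqep hadd
  have h2 := D.iff2 hq hq0 hqep hadd
  tauto

end Win

end Fermat.Agent.S45.Pts.NC

end
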