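/-
S45, project CARAYOL-K, block PTS, node NC (second team: helper163).  THE NON-CUSPIDAL POINTS.
-/
import Mathlib
import Fermat.Agent.S45.Pts.Defs
import Fermat.Agent.S45.Pts.Chain
import Fermat.Agent.S45.Pts.Comb
import Fermat.Agent.S45.Pts.GenChain
import Fermat.Agent.S45.Pts.Cusp.Asm
import Fermat.Agent.S45.Pts.NC.Win
import Fermat.Agent.BAD.Model.Seidenberg
import Fermat.Agent.BAD.Model.NonCusp.Main
import Fermat.Agent.S36.BP.Build.ChartMap

set_option autoImplicit false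

noncomputable section

namespace Fermat.Agent.S45.Pts.NC

open Fermat.Agent.S18 Fermat.Agent.S36.BP Fermat.Agent.BAD.Model Fermat.Agent.S45.K
  Fermat.Agent.S45.Gen Fermat.Agent.S36.BP.Build

variable {K₀ F₀ F₁ F₂ F : Type*} [Field K₀] [Field F₀] [Field F₁] [Field F₂] [Field F]
  [Algebra K₀ F₀] [Algebra K₀ F₁] [Algebra K₀ F₂] [Algebra K₀ F]
variable {A₀ : ValuationSubring K₀} {q k : ℕ} {al0 be0 : F₀ →ₐ[K₀] F₁} {al1 be1 : F₁ →ₐ[K₀] F₂}
  {V0 : ValuationSubring F₀} {V1 : Fin 2 → ValuationSubring F₁} {V2 : Fin 3 → ValuationSubring F₂}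
  {V : Fin (k + 1) → ValuationSubring F} {j x₀ t : F₀} {x₁ : F₁} {w1 : F₁ →ₐ[K₀] F₁}
  {cf : ℕ → ℕ → K₀} {κ : F₂} {e : Fin 4 → F₂}
  {d : ℕ → F₀ →ₐ[K₀] F} {st : ℕ → F₁ →ₐ[K₀] F} {w : ℕ → F₂ →ₐ[K₀] F}
  {Eα : Subfield F} {Nα Nβ N₀ : F →* F} {R : Subring F}

/-! ### membership in `R` -/

theorem chart_le (G : Geo A₀ k al0 be0 al1 be1 V0 V1 V2 V j d st w) (hP : IsPt A₀ R)
    (hx : d 0 j ∈ R) {i : ℕ} (hi : i ≤ k) : ∀ b ∈ chart A₀.toSubring (d i j), b ∈ R :=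
  fun b hb => Seidenberg.chart_le_of_mem_pt hP hx b (chart_le_of_mem _ (G.jint i hi).1 hb)

theorem xs_mem (G : Geo A₀ k al0 be0 al1 be1 V0 V1 V2 V j d st w)
    (b1 : B1 A₀ q al0 be0 V1 j t x₁ w1 cf) (hP : IsPt A₀ R) (hx : d 0 j ∈ R) {i : ℕ} (hi : i < k) :
    st i x₁ ∈ R := by
  have h := map_mem_chart (st i) A₀.toSubring (al0 j) x₁ b1.x_int
  rw [G.st_al i hi] at h
  exact chart_le G hP hx hi.le _ h

theorem q_xs_mem (G : Geo A₀ k al0 be0 al1 be1 V0 V1 V2 V j d st w)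
    (b1 : B1 A₀ q al0 be0 V1 j t x₁ w1 cf) (hP : IsPt A₀ R) (hx : d 0 j ∈ R) {i : ℕ} (hi : i < k) :
    (q : F) * (st i x₁)⁻¹ ∈ R := by
  have h := map_mem_chart (st i) A₀.toSubring (al0 j) _ b1.x_int'
  rw [G.st_al i hi, map_mul, map_natCast, map_inv₀] at h
  exact chart_le G hP hx hi.le _ h

theorem dt_unit (G : Geo A₀ k al0 be0 al1 be1 V0 V1 V2 V j d st w) (b0 : B0 A₀ q V0 j x₀ t F)
    (hP : IsPt A₀ R) (hx : d 0 j ∈ R) {i : ℕ} (hi : i ≤ k) : RUnit R (d i t) := by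
  have h1 := map_mem_chart (d i) A₀.toSubring j t b0.t_int
  have h2 := map_mem_chart (d i) A₀.toSubring j _ b0.t_int'
  rw [map_inv₀] at h2
  have ht0 : t ≠ 0 := ne_zero_of_val_eq_one b0.t_unit
  exact ⟨(map_ne_zero (d i)).2 ht0, chart_le G hP hx hi _ h1, chart_le G hP hx hi _ h2⟩

/-! ### the window `i` -/

theorem wY0 (G : Geo A₀ k al0 be0 al1 be1 V0 V1 V2 V j d st w) {i : ℕ} (hi : i + 1 < k) :
    w i (Y2 q al1 be1 x₁ 0) = (q : F) * (st (i + 1) x₁)⁻¹ := by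
  show w i ((q : F₂) * (be1 x₁)⁻¹) = _
  rw [map_mul, map_natCast, map_inv₀, G.w_be i hi]

theorem wY1 (G : Geo A₀ k al0 be0 al1 be1 V0 V1 V2 V j d st w) {i : ℕ} (hi : i + 1 < k) :
    w i (Y2 q al1 be1 x₁ 1) = st (i + 1) x₁ * (st i x₁)⁻¹ := by
  show w i (be1 x₁ * (al1 x₁)⁻¹) = _
  rw [map_mul, map_inv₀, G.w_be i hi, G.w_al i hi]

theorem wY2 (G : Geo A₀ k al0 be0 al1 be1 V0 V1 V2 V j d st w) {i : ℕ} (hi : i + 1 < k) :
    w i (Y2 q al1 be1 x₁ 2) = st i x₁ := by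
  show w i (al1 x₁) = _
  rw [G.w_al i hi]

theorem pm_unit {ε : F₂} (h : ε = 1 ∨ ε = -1) (φ : F₂ →ₐ[K₀] F) : RUnit R (φ ε) := by
  rcases h with rfl | rfl
  · rw [map_one]; exact RUnit.one R
  · rw [map_neg, map_one]; exact (RUnit.one R).neg

/-- the window `i` at the point `R`. -/
theorem win (G : Geo A₀ k al0 be0 al1 be1 V0 V1 V2 V j d st w)
    (b1 : B1 A₀ q al0 be0 V1 j t x₁ w1 cf) (b2 : B2 q al0 be0 al1 be1 V2 j t x₁ κ e)
    (hR : PtBaseK A₀ q V R) (hx : d 0 j ∈ R) {i : ℕ} (hi : i + 1 < k) :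
    Win q V R (fun c => wty k (c : ℕ) i) (fun τ => w i (Y2 q al1 be1 x₁ τ))
      (fun τ => w i (e (Fin.castSucc τ))) := by
  have hP := hR.isPt
  have hlt : ∀ c : Fin (k + 1), (V c).valuation (w i (Y2 q al1 be1 x₁ (wty k (c : ℕ) i))) < 1 :=
    fun c => (val_lt_one_of_comap (ι := (w i : F₂ →+* F)) (G.comap_w c i hi) _).2 (b2.nc.lt _)
  have hone : ∀ (c : Fin (k + 1)) (τ : Fin 3), wty k (c : ℕ) i ≠ τ →
      (V c).valuation (w i (Y2 q al1 be1 x₁ τ)) = 1 :=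
    fun c τ h => (val_eq_one_of_comap (ι := (w i : F₂ →+* F)) (G.comap_w c i hi) _).2
      (b2.nc.unit τ _ h)
  have hm0 : w i (Y2 q al1 be1 x₁ 0) ∈ R := by
    rw [wY0 G hi]; exact q_xs_mem G b1 hP hx hi
  have hm2 : w i (Y2 q al1 be1 x₁ 2) ∈ R := by
    rw [wY2 G hi]; exact xs_mem G b1 hP hx (by omega)
  have hm1 : w i (Y2 q al1 be1 x₁ 1) ∈ R := by
    refine hR.qep _ ?_ fun c => Or.inl ?_
    · rw [wY1 G hi]
      have e1 : (q : F) * (st (i + 1) x₁ * (st i x₁)⁻¹) = st (i + 1) x₁ * ((q : F) * (st i x₁)⁻¹) := by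
        ring
      rw [e1]
      exact R.mul_mem (xs_mem G b1 hP hx hi) (q_xs_mem G b1 hP hx (by omega))
    · rw [mem_iff_val_le]
      by_cases h : wty k (c : ℕ) i = 1
      · have := hlt c
        rw [h] at this
        exact this.le
      · exact (hone c 1 h).le
  refine ⟨fun τ => pm_unit (b2.e_pm _) _, ?_, ?_, hlt, hone, ?_, ?_, ?_⟩
  · intro τ
    fin_cases τ
    · exact hm0
    · exact hm1
    · exact hm2
  · rw [← map_mul, ← map_mul, b2.nc.prod, map_natCast]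
  · intro c hc
    have h := (val_lt_one_of_comap (ι := (w i : F₂ →+* F)) (G.comap_w c i hi) _).2
      (hc ▸ b2.nc.cong0)
    simpa using h
  · intro c hc
    have h := (val_lt_one_of_comap (ι := (w i : F₂ →+* F)) (G.comap_w c i hi) _).2
      (hc ▸ b2.nc.cong1)
    simpa using h
  · intro c hc
    have h := (val_lt_one_of_comap (ι := (w i : F₂ →+* F)) (G.comap_w c i hi) _).2
      (hc ▸ b2.nc.cong2)
    simpa using h

/-! ### the types of the windows -/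

theorem wty_eq_zero {k c i : ℕ} : wty k c i = 0 ↔ i + 1 + c < k := by
  unfold wty
  by_cases h1 : i + 1 + c < k
  · simp [h1]
  · by_cases h2 : i + c < k
    · simp [h1, h2]
    · simp [h1, h2]

theorem wty_eq_one {k c i : ℕ} : wty k c i = 1 ↔ i + 1 + c = k := by
  unfold wty
  by_cases h1 : i + 1 + c < k
  · simp [h1]; omega
  · by_cases h2 : i + c < k
    · simp [h1, h2]; omega
    · simp [h1, h2]; omega

theorem wty_eq_two {k c i : ℕ} : wty k c i = 2 ↔ k ≤ i + c := by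
  unfold wty
  by_cases h1 : i + 1 + c < k
  · simp [h1]; omega
  · by_cases h2 : i + c < k
    · simp [h1, h2]
    · simp [h1, h2]; omega

/-- "the component with `a` letters `F` passes through `R`" -/
def TT (V : Fin (k + 1) → ValuationSubring F) (R : Subring F) (a : ℕ) : Prop :=
  ∃ c : Fin (k + 1), (c : ℕ) + a = k ∧ Through R (V c)

theorem winCond (hb : BaseHyp A₀ q) (G : Geo A₀ k al0 be0 al1 be1 V0 V1 V2 V j d st w)
    (b1 : B1 A₀ q al0 be0 V1 j t x₁ w1 cf) (b2 : B2 q al0 be0 al1 be1 V2 j t x₁ κ e)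
    (hR : PtBaseK A₀ q V R) (hx : d 0 j ∈ R) (hqep : LocQep q V R) {i : ℕ} (hi1 : 1 ≤ i)
    (hik : i < k) : WinCond k (TT V R) i := by
  have D := win G b1 b2 hR hx (i := i - 1) (by omega)
  have h := D.cond hb.prime.two_le (CuspInc.q_ne hb) hqep hR.isPt.add_rad
  have e2 : (∃ c : Fin (k + 1), Through R (V c) ∧ wty k (c : ℕ) (i - 1) = 2) ↔
      ∃ a, a < i ∧ TT V R a := by
    constructor
    · rintro ⟨c, hc, hτ⟩
      rw [wty_eq_two] at hτ
      have := c.2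
      exact ⟨k - c, by omega, c, by omega, hc⟩
    · rintro ⟨a, ha, c, hca, hc⟩
      exact ⟨c, hc, wty_eq_two.2 (by omega)⟩
  have e1 : (∃ c : Fin (k + 1), Through R (V c) ∧ wty k (c : ℕ) (i - 1) = 1) ↔ TT V R i := by
    constructor
    · rintro ⟨c, hc, hτ⟩
      rw [wty_eq_one] at hτ
      exact ⟨c, by omega, hc⟩
    · rintro ⟨c, hca, hc⟩
      exact ⟨c, hc, wty_eq_one.2 (by omega)⟩
  have e0 : (∃ c : Fin (k + 1), Through R (V c) ∧ wty k (c : ℕ) (i - 1) = 0) ↔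
      ∃ a, i < a ∧ a ≤ k ∧ TT V R a := by
    constructor
    · rintro ⟨c, hc, hτ⟩
      rw [wty_eq_zero] at hτ
      exact ⟨k - c, by omega, by omega, c, by omega, hc⟩
    · rintro ⟨a, ha, hak, c, hca, hc⟩
      exact ⟨c, hc, wty_eq_zero.2 (by omega)⟩
  rw [e0, e1, e2] at h
  exact h

/-! ### principality -/

/-- at a crossing point the component `V^k` is principal. -/
theorem princ_last (hk : 2 ≤ k) (hb : BaseHyp A₀ q)
    (G : Geo A₀ k al0 be0 al1 be1 V0 V1 V2 V j d st w)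
    (b1 : B1 A₀ q al0 be0 V1 j t x₁ w1 cf) (b2 : B2 q al0 be0 al1 be1 V2 j t x₁ κ e)
    (T : Top A₀ q k V j d Eα Nα Nβ N₀) (hR : PtBaseK A₀ q V R) (hx : d 0 j ∈ R)
    (hqep : LocQep q V R) : Princ R (V (Fin.last k)) := by
  have hq0 : (q : F) ≠ 0 := CuspInc.q_ne hb
  have D := win G b1 b2 hR hx (i := 0) (by omega)
  have hty : wty k ((Fin.last k : Fin (k + 1)) : ℕ) 0 = 2 := wty_eq_two.2 (by simp)
  have hlt : (V (Fin.last k)).valuation (w 0 (Y2 q al1 be1 x₁ 2)) < 1 := by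
    have := D.lt (Fin.last k)
    simp only [hty] at this
    exact this
  have h0 : (V (Fin.last k)).valuation (w 0 (Y2 q al1 be1 x₁ 0)) = 1 :=
    D.one (Fin.last k) 0 (by rw [hty]; decide)
  have h1 : (V (Fin.last k)).valuation (w 0 (Y2 q al1 be1 x₁ 1)) = 1 :=
    D.one (Fin.last k) 1 (by rw [hty]; decide)
  have hv : (V (Fin.last k)).valuation (w 0 (Y2 q al1 be1 x₁ 2)) =
      (V (Fin.last k)).valuation (q : F) := by
    rw [← D.prod, map_mul, map_mul, h0, h1, one_mul, one_mul]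
  refine princ_of hqep (Fin.last k) (D.mem 2) (D.ne_zero hq0 2) (k := 1) (D.q_div_mem hq0 2) hlt ?_ ?_
  · intro y hy
    rw [hv]
    exact Fermat.Agent.S45.Tab.le_unif T.unif_last hy
  · intro c hc _
    refine D.one c 2 fun h => hc (Fin.ext ?_)
    have h' := wty_eq_two.1 h
    have := c.2
    simp only [Fin.val_last]
    omega

theorem val1_al0 (hk : 0 < k) (G : Geo A₀ k al0 be0 al1 be1 V0 V1 V2 V j d st w) {g : F₀}
    (hg : V0.valuation g = 1) : (V1 0).valuation (al0 g) = 1 := by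
  have h0 : sty k ((0 : Fin (k + 1)) : ℕ) 0 = 0 := by simp [sty, hk]
  have hc := G.comap_st 0 0 hk
  rw [h0] at hc
  refine (val_eq_one_of_comap (ι := (st 0 : F₁ →+* F)) hc (al0 g)).1 ?_
  have e1 : (st 0 : F₁ →+* F) (al0 g) = d 0 g := G.st_al 0 hk g
  rw [e1]
  exact (val_eq_one_of_comap (ι := (d 0 : F₀ →+* F)) (G.comap_d 0 0 (Nat.zero_le k)) g).2 hg

/-- at a point which lies on one component only, this component is principal. -/
theorem princ_single (hb : BaseHyp A₀ q)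
    (G : Geo A₀ k al0 be0 al1 be1 V0 V1 V2 V j d st w) (b0 : B0 A₀ q V0 j x₀ t F)
    (b1 : B1 A₀ q al0 be0 V1 j t x₁ w1 cf) (b2 : B2 q al0 be0 al1 be1 V2 j t x₁ κ e)
    (T : Top A₀ q k V j d Eα Nα Nβ N₀) (hR : PtBaseK A₀ q V R) (hx : d 0 j ∈ R)
    (hqep : LocQep q V R) {c₀ : Fin (k + 1)} (ht : Through R (V c₀))
    (hA : ∀ c, c ≠ c₀ → Away R (V c)) : Princ R (V c₀) := by
  have hP := hR.isPt
  have hq0 : (q : F) ≠ 0 := CuspInc.q_ne hb
  have hqR : (q : F) ∈ R := natCast_mem R q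
  by_cases h0 : (c₀ : ℕ) = 0
  · have e : c₀ = 0 := Fin.ext h0
    refine princ_chain hqep hP.add_rad ht hA (fun _ => (q : F)) rfl 0 (fun _ _ => hqR)
      (fun _ _ => hq0) (fun i hi => absurd hi (Nat.not_lt_zero i)) ?_
    rw [e]
    exact T.unif_zero
  by_cases hk' : (c₀ : ℕ) = k
  · have e : c₀ = Fin.last k := Fin.ext hk'
    refine princ_chain hqep hP.add_rad ht hA (fun _ => (q : F)) rfl 0 (fun _ _ => hqR)
      (fun _ _ => hq0) (fun i hi => absurd hi (Nat.not_lt_zero i)) ?_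
    rw [e]
    exact T.unif_last
  have hc0 : 0 < (c₀ : ℕ) := Nat.pos_of_ne_zero h0
  have hck : (c₀ : ℕ) < k := lt_of_le_of_ne (Nat.lt_succ_iff.1 c₀.2) hk'
  have hm : 1 ≤ min (c₀ : ℕ) (k - c₀) := le_min hc0 (by omega)
  have hi₀ : k - (c₀ : ℕ) - 1 + 1 < k := by omega
  have D := win G b1 b2 hR hx hi₀
  have hw : wty k (c₀ : ℕ) (k - c₀ - 1) = 1 := wty_eq_one.2 (by omega)
  have honly : ∀ c, Through R (V c) → c = c₀ := fun c hc => by
    by_contra hne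
    exact not_away_of_through hc (hA c hne)
  have hκ : RUnit R (w (k - c₀ - 1) κ) := by
    rcases b2.kap with h | h
    · rw [h, map_mul]
      refine (D.unit_of_not hq0 hqep 0 fun c hc => ?_).mul (D.unit_of_not hq0 hqep 2 fun c hc => ?_)
      · rw [honly c hc, hw]; decide
      · rw [honly c hc, hw]; decide
    · rw [h, map_one]; exact RUnit.one R
  have hε : RUnit R (w (k - c₀ - 1) (e 3)) := pm_unit (b2.e_pm 3) _
  have hcw := G.comap_w c₀ (k - c₀ - 1) hi₀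
  rw [hw] at hcw
  have hcz : (V c₀).valuation (zg k d t c₀ 1 ^ (q - 1) / (q : F) * w (k - c₀ - 1) κ -
      w (k - c₀ - 1) (e 3)) < 1 := by
    have h := (val_lt_one_of_comap (ι := (w (k - c₀ - 1) : F₂ →+* F)) hcw _).2 b2.nc.congz
    have e1 : (w (k - c₀ - 1) : F₂ →+* F) (z2 al0 be0 al1 be1 t) = zg k d t c₀ 1 :=
      CuspInc.w_z2 G hc0 hck t
    rw [map_sub, map_mul, map_div₀, map_pow, e1, map_natCast] at h
    exact h
  have hvq0 : (V c₀).valuation (q : F) ≠ 0 := (Valuation.ne_zero_iff _).2 hq0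
  have hvq : (V c₀).valuation (q : F) < 1 := val_q_lt_one G b0 c₀
  have hbase : (V c₀).valuation (zg k d t c₀ 1) ^ (q - 1) = (V c₀).valuation (q : F) := by
    have h1 : (V c₀).valuation (zg k d t c₀ 1 ^ (q - 1) / (q : F) * w (k - c₀ - 1) κ) = 1 :=
      Cg.val_eq_one hcz (hε.val_eq_one ht.le)
    rw [map_mul, hκ.val_eq_one ht.le, mul_one, map_div₀, map_pow, div_eq_one_iff_eq hvq0] at h1
    exact h1
  have hkpos : 0 < k := by omega
  have hgt := gen_chain hb G b0 b1 c₀ hc0 hck t (val1_al0 hkpos G b0.t_unit) b1.kron_t hbase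
  have hgj := gen_chain hb G b0 b1 c₀ hc0 hck j (val1_al0 hkpos G b0.j_unit) b1.kron_j
    (CuspInc.zg_one_ram G b2 c₀ hc0 hck)
  have hU : IsUnif (V c₀) (zg k d t c₀ (min (c₀ : ℕ) (k - c₀))) := by
    refine isUnif_of_val_eq (T.unif_mid c₀ hc0 hck) ?_
    have h1 := (hgt _ hm le_rfl).1
    have h2 := (hgj _ hm le_rfl).1
    have h3 : mult q (min (c₀ : ℕ) (k - c₀)) ≠ 0 := by
      have := mult_pos hb.prime.two_le (min (c₀ : ℕ) (k - c₀))
      omega
    exact (pow_left_inj₀ zero_le zero_le h3).1 (h1.trans h2.symm)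
  refine princ_chain hqep hP.add_rad ht hA
    (fun i => if i = 0 then (q : F) else zg k d t c₀ i) (by simp) (min (c₀ : ℕ) (k - c₀))
    ?_ ?_ ?_ ?_
  · intro i hi
    by_cases hi0 : i = 0
    · simp only [hi0, if_true]; exact hqR
    · simp only [hi0, if_false]
      have h1 : i ≤ (c₀ : ℕ) := hi.trans (min_le_left _ _)
      exact R.sub_mem ((dt_unit G b0 hP hx (i := k - c₀ + i) (by omega)).div
        (dt_unit G b0 hP hx (i := k - c₀ - i) (by omega))).mem R.one_mem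
  · intro i hi
    by_cases hi0 : i = 0
    · simp only [hi0, if_true]; exact hq0
    · simp only [hi0, if_false]
      intro hz
      have h1 := (hgt i (Nat.pos_of_ne_zero hi0) hi).1
      rw [hz, map_zero] at h1
      rcases Nat.eq_zero_or_pos (mult q i) with h2 | h2
      · rw [h2, pow_zero] at h1
        exact absurd h1.symm hvq.ne
      · rw [zero_pow h2.ne'] at h1
        exact hvq0 h1.symm
  · intro i hi
    by_cases hi0 : i = 0
    · subst hi0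
      have hq1 : q - 1 ≠ 0 := by have := hb.prime.two_le; omega
      refine ⟨q - 1, hq1, w (k - c₀ - 1) κ, w (k - c₀ - 1) (e 3), hκ, hε, ?_⟩
      simpa using hcz
    · refine ⟨q, hb.prime.ne_zero, 1, 1, RUnit.one R, RUnit.one R, ?_⟩
      have h1 := (hgt i (Nat.pos_of_ne_zero hi0) hi.le).2 hi
      simpa [hi0] using h1
  · have hm0 : min (c₀ : ℕ) (k - c₀) ≠ 0 := by omega
    simp only [hm0, if_false]
    exact hU

end Fermat.Agent.S45.Pts.NC

namespace Fermat.Agent.S45.Pts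

open Fermat.Agent.S18 Fermat.Agent.S36.BP Fermat.Agent.BAD.Model Fermat.Agent.S45.K
  Fermat.Agent.S45.Gen Fermat.Agent.S36.BP.Build

variable {K₀ F₀ F₁ F₂ F : Type*} [Field K₀] [Field F₀] [Field F₁] [Field F₂] [Field F]
  [Algebra K₀ F₀] [Algebra K₀ F₁] [Algebra K₀ F₂] [Algebra K₀ F]
variable {A₀ : ValuationSubring K₀} {q k : ℕ} {al0 be0 : F₀ →ₐ[K₀] F₁} {al1 be1 : F₁ →ₐ[K₀] F₂}
  {V0 : ValuationSubring F₀} {V1 : Fin 2 → ValuationSubring F₁} {V2 : Fin 3 → ValuationSubring F₂}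
  {V : Fin (k + 1) → ValuationSubring F} {j x₀ t : F₀} {x₁ : F₁} {w1 : F₁ →ₐ[K₀] F₁}
  {cf : ℕ → ℕ → K₀} {κ : F₂} {e : Fin 4 → F₂}
  {d : ℕ → F₀ →ₐ[K₀] F} {st : ℕ → F₁ →ₐ[K₀] F} {w : ℕ → F₂ →ₐ[K₀] F}
  {Eα : Subfield F} {Nα Nβ N₀ : F →* F} {R : Subring F}

/-- **NC**: the non-cuspidal points. -/
theorem ptHypK_nonCusp (hk : 2 ≤ k) (hb : BaseHyp A₀ q)
    (G : Geo A₀ k al0 be0 al1 be1 V0 V1 V2 V j d st w) (b0 : B0 A₀ q V0 j x₀ t F)
    (b1 : B1 A₀ q al0 be0 V1 j t x₁ w1 cf) (b2 : B2 q al0 be0 al1 be1 V2 j t x₁ κ e)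
    (T : Top A₀ q k V j d Eα Nα Nβ N₀) (hR : PtBaseK A₀ q V R) (hx : d 0 j ∈ R)
    (hT : ∀ c, LeLoc R (V c) → Through R (V c))
    (hN : (∀ c, Through R (V c)) → (∀ ε : F, RUnit R ε → RUnit R (Nα ε)) ∧
      (∀ ε : F, RUnit R ε → RUnit R (Nβ ε)) ∧ (∀ ε : F, RUnit R ε → RUnit R (N₀ ε))) :
    PtHypK V Nα Nβ N₀ R := by
  have hqep := CuspInc.locQep hR hT
  have hta : ∀ c, Through R (V c) ∨ Away R (V c) := fun c => (hR.leLoc_or_away c).imp (hT c) id
  rcases singleton_or_all (NC.TT V R) (fun i h1 h2 => NC.winCond hb G b1 b2 hR hx hqep h1 h2) with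
    ⟨a₀, h⟩ | hall
  · obtain ⟨c₀, hc₀⟩ : ∃ c₀, Through R (V c₀) := by
      by_contra hcon
      exact hR.not_all_away fun c => (hta c).resolve_left fun h => hcon ⟨c, h⟩
    have key : ∀ c : Fin (k + 1), Through R (V c) → k - (c : ℕ) = a₀ := fun c hc => by
      by_contra hne
      have := c.2
      exact h (k - c) (Nat.sub_le _ _) hne ⟨c, by omega, hc⟩
    have hA : ∀ c, c ≠ c₀ → Away R (V c) := by
      intro c hc
      refine (hta c).resolve_left fun hthr => hc (Fin.ext ?_)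
      have h1 := key c hthr
      have h2 := key c₀ hc₀
      have := c.2
      have := c₀.2
      omega
    exact ⟨hta, ⟨c₀, hc₀, NC.princ_single hb G b0 b1 b2 T hR hx hqep hc₀ hA⟩, Or.inl ⟨c₀, hA⟩⟩
  · have hall' : ∀ c, Through R (V c) := fun c => by
      obtain ⟨c', h1, h2⟩ := hall (k - c) (Nat.sub_le _ _)
      have h3 : c' = c := Fin.ext (by have := c.2; have := c'.2; omega)
      rwa [h3] at h2
    exact ⟨hta, ⟨Fin.last k, hall' _, NC.princ_last hk hb G b1 b2 T hR hx hqep⟩,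
      Or.inr ⟨hall', hN hall'⟩⟩

end Fermat.Agent.S45.Pts

end
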